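import Fermat.Agent.S20.H77.Basic

/-!
# Fixed points of `S` and `S * T` on `SL(2, ℤ) ⧸ Gamma0 N`  (package A2 of S20)
-/

open CongruenceSubgroup ModularGroup MatrixGroups ModularCurve

namespace Fermat.Agent.S20.H77

/-- Abstract counting lemma: if membership of `mk g` in a set `F` of cosets is given by the
vanishing mod `N` of `a ^ 2 + t * a * c + c ^ 2` on the first column `(a, c)`, then `F` is in
bijection with the roots of `x ^ 2 + t * x + 1` in `ZMod N`. -/
theorem card_of_quadratic (N : ℕ) [NeZero N] (t : ZMod N) (F : Set (SL(2, ℤ) ⧸ Gamma0 N))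
    (hF : ∀ g : SL(2, ℤ), (QuotientGroup.mk g : SL(2, ℤ) ⧸ Gamma0 N) ∈ F ↔
      (g 0 0 : ZMod N) ^ 2 + t * (g 0 0 : ZMod N) * (g 1 0 : ZMod N) + (g 1 0 : ZMod N) ^ 2 = 0) :
    Nat.card F = Nat.card {x : ZMod N // x ^ 2 + t * x + 1 = 0} := by
  symm
  refine Nat.card_congr (Equiv.ofBijective
    (fun x => ⟨QuotientGroup.mk (colOne (x.1.cast : ℤ)), ?_⟩) ⟨?_, ?_⟩)
  · rw [hF]
    simp only [colOne_zero_zero, colOne_one_zero, ZMod.intCast_cast, ZMod.cast_id', id_eq,
      Int.cast_one, mul_one, one_pow]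
    exact x.2
  · intro x y hxy
    simp only [Subtype.mk.injEq, mk_eq_mk_iff', colOne_zero_zero, colOne_one_zero,
      ZMod.intCast_cast, ZMod.cast_id', id_eq, Int.cast_one, mul_one, one_mul] at hxy
    exact Subtype.ext hxy
  · rintro ⟨q, hq⟩
    obtain ⟨g, rfl⟩ := QuotientGroup.mk_surjective q
    have h := (hF g).1 hq
    obtain ⟨r, s, hrs⟩ := isCoprime_col g
    have hrs' : (r : ZMod N) * (g 0 0 : ZMod N) + (s : ZMod N) * (g 1 0 : ZMod N) = 1 := by
      have := congrArg (Int.cast : ℤ → ZMod N) hrs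
      push_cast at this
      exact this
    set a : ZMod N := (g 0 0 : ZMod N) with ha
    set c : ZMod N := (g 1 0 : ZMod N) with hc
    set r' : ZMod N := (r : ZMod N)
    set s' : ZMod N := (s : ZMod N)
    set w : ZMod N := -r' ^ 2 * (t * a + c) + 2 * r' * s' * a + s' ^ 2 * c with hw
    have hwc : w * c = 1 := by
      linear_combination (-r' ^ 2) * h + (r' * a + s' * c + 1) * hrs'
    refine ⟨⟨a * w, ?_⟩, ?_⟩
    · linear_combination w ^ 2 * h - (t * a * w + 1 + w * c) * hwc
    · simp only [Subtype.mk.injEq, mk_eq_mk_iff', colOne_zero_zero, colOne_one_zero,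
        ZMod.intCast_cast, ZMod.cast_id', id_eq, Int.cast_one, one_mul]
      rw [← ha, ← hc]
      linear_combination a * hwc

/-- **A2 (order 2).** The number of cosets of `Gamma0 N` fixed by `S` is `nuTwo N`. -/
theorem card_fixedBy_S (N : ℕ) [NeZero N] :
    Nat.card (MulAction.fixedBy (SL(2, ℤ) ⧸ Gamma0 N) S) = nuTwo N := by
  have := card_of_quadratic N 0 (MulAction.fixedBy (SL(2, ℤ) ⧸ Gamma0 N) S) (fun g => by
    rw [mk_mem_fixedBy_iff, S_mul_zero_zero, S_mul_one_zero]
    push_cast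
    constructor <;> intro h <;> linear_combination -h)
  rw [this, nuTwo]
  simp

/-- **A2 (order 3).** The number of cosets of `Gamma0 N` fixed by `S * T` is `nuThree N`. -/
theorem card_fixedBy_ST (N : ℕ) [NeZero N] :
    Nat.card (MulAction.fixedBy (SL(2, ℤ) ⧸ Gamma0 N) (S * T)) = nuThree N := by
  have := card_of_quadratic N 1 (MulAction.fixedBy (SL(2, ℤ) ⧸ Gamma0 N) (S * T)) (fun g => by
    rw [mk_mem_fixedBy_iff, ST_mul_zero_zero, ST_mul_one_zero]
    push_cast
    constructor <;> intro h <;> linear_combination -h)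
  rw [this, nuThree]
  simp

end Fermat.Agent.S20.H77
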