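import Fermat.Agent.S20.H77.Basic

/-!
# The index of `Gamma0 N` in `SL(2, ℤ)` is `dedekindPsi N`  (package A1 of S20)

Tower induction `N → N * p` with explicit coset representatives of `Gamma0 (N * p)` in
`Gamma0 N`: the matrices `[[1, 0], [N * y, 1]]` for `y` mod `p`, and one more (first column
`(p, N)`) exactly when `p ∤ N`.
-/

open CongruenceSubgroup ModularGroup MatrixGroups ModularCurve

namespace Fermat.Agent.S20.H77

/-- Computing a relative index from an explicit system of coset representatives. -/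
theorem relIndex_eq_card_of_reps {G : Type*} [Group G] (H K : Subgroup G) {ι : Type*}
    (f : ι → G) (hf : ∀ i, f i ∈ K) (hinj : ∀ i j, (f i)⁻¹ * f j ∈ H → i = j)
    (hsurj : ∀ k ∈ K, ∃ i, (f i)⁻¹ * k ∈ H) : H.relIndex K = Nat.card ι := by
  rw [Subgroup.relIndex, Subgroup.index_eq_card]
  symm
  refine Nat.card_congr (Equiv.ofBijective
    (fun i => (QuotientGroup.mk ⟨f i, hf i⟩ : K ⧸ H.subgroupOf K)) ⟨?_, ?_⟩)
  · intro i j hij
    rw [QuotientGroup.eq, Subgroup.mem_subgroupOf] at hij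
    exact hinj i j (by simpa using hij)
  · intro q
    obtain ⟨k, rfl⟩ := QuotientGroup.mk_surjective q
    obtain ⟨i, hi⟩ := hsurj k k.2
    exact ⟨i, by rw [QuotientGroup.eq, Subgroup.mem_subgroupOf]; simpa using hi⟩

theorem Gamma0_mul_le (N p : ℕ) : Gamma0 (N * p) ≤ Gamma0 N := by
  intro g hg
  rw [mem_Gamma0_iff_dvd] at hg ⊢
  exact dvd_trans (by push_cast; exact dvd_mul_right _ _) hg

/-- The common part of the two relative index computations: the representatives
`[[1, 0], [N * y, 1]]`, `y : ZMod p`, are pairwise inequivalent modulo `Gamma0 (N * p)`. -/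
theorem lowerMat_inj {N p : ℕ} [NeZero p] (hN : N ≠ 0) (y y' : ZMod p)
    (h : (lowerMat ((N : ℤ) * (y.val : ℤ)))⁻¹ * lowerMat ((N : ℤ) * (y'.val : ℤ)) ∈
      Gamma0 (N * p)) : y = y' := by
  rw [inv_mul_mem_Gamma0_iff] at h
  simp only [lowerMat_zero_zero, lowerMat_one_zero, one_mul, mul_one] at h
  have h2 : ((N : ℤ) * (p : ℤ)) ∣ (N : ℤ) * ((y'.val : ℤ) - (y.val : ℤ)) := by
    have : (N : ℤ) * ((y'.val : ℤ) - (y.val : ℤ)) = (N : ℤ) * (y'.val : ℤ) - (N : ℤ) * (y.val : ℤ) := by ring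
    rw [this]
    exact_mod_cast h
  have h3 : (p : ℤ) ∣ (y'.val : ℤ) - (y.val : ℤ) :=
    (mul_dvd_mul_iff_left (by exact_mod_cast hN)).1 h2
  rw [← ZMod.intCast_zmod_eq_zero_iff_dvd] at h3
  push_cast at h3
  rw [ZMod.natCast_zmod_val, ZMod.natCast_zmod_val] at h3
  exact (sub_eq_zero.1 h3).symm

/-- Any element of `Gamma0 N` whose upper left entry is prime to `p` is equivalent modulo
`Gamma0 (N * p)` to one of the representatives `[[1, 0], [N * y, 1]]`. -/
theorem lowerMat_surj {N p : ℕ} [NeZero p] (k : SL(2, ℤ)) (hk : k ∈ Gamma0 N)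
    (hp : IsCoprime (k 0 0) (p : ℤ)) :
    ∃ y : ZMod p, (lowerMat ((N : ℤ) * (y.val : ℤ)))⁻¹ * k ∈ Gamma0 (N * p) := by
  rw [mem_Gamma0_iff_dvd] at hk
  obtain ⟨c, hc⟩ := hk
  obtain ⟨r, s, hrs⟩ := hp
  refine ⟨(c : ZMod p) * (r : ZMod p), ?_⟩
  rw [inv_mul_mem_Gamma0_iff]
  simp only [lowerMat_zero_zero, lowerMat_one_zero, one_mul]
  rw [hc]
  have : (N : ℤ) * c - (N : ℤ) * ((((c : ZMod p) * (r : ZMod p)).val : ℕ) : ℤ) * k 0 0
      = (N : ℤ) * (c - ((((c : ZMod p) * (r : ZMod p)).val : ℕ) : ℤ) * k 0 0) := by ring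
  rw [this]
  push_cast
  refine mul_dvd_mul_left _ ?_
  rw [← ZMod.intCast_zmod_eq_zero_iff_dvd]
  push_cast
  rw [ZMod.natCast_zmod_val]
  have h1 : (r : ZMod p) * (k 0 0 : ZMod p) = 1 := by
    have := congrArg (Int.cast : ℤ → ZMod p) hrs
    push_cast at this
    simpa using this
  linear_combination (-(c : ZMod p)) * h1

theorem relIndex_Gamma0_of_dvd {N p : ℕ} (hp : p.Prime) (hN : N ≠ 0) (hpN : p ∣ N) :
    (Gamma0 (N * p)).relIndex (Gamma0 N) = p := by
  have : NeZero p := ⟨hp.ne_zero⟩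
  rw [relIndex_eq_card_of_reps (Gamma0 (N * p)) (Gamma0 N)
    (fun y : ZMod p => lowerMat ((N : ℤ) * (y.val : ℤ)))]
  · rw [Nat.card_eq_fintype_card, ZMod.card]
  · intro y
    rw [mem_Gamma0_iff_dvd, lowerMat_one_zero]
    exact dvd_mul_right _ _
  · intro y y' h
    exact lowerMat_inj hN y y' h
  · intro k hk
    refine lowerMat_surj k hk ?_
    have h1 : (p : ℤ) ∣ k 1 0 :=
      dvd_trans (by exact_mod_cast hpN) ((mem_Gamma0_iff_dvd N k).1 hk)
    exact (isCoprime_col k).of_isCoprime_of_dvd_right h1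

theorem relIndex_Gamma0_of_not_dvd {N p : ℕ} (hp : p.Prime) (hN : N ≠ 0) (hpN : ¬ p ∣ N) :
    (Gamma0 (N * p)).relIndex (Gamma0 N) = p + 1 := by
  have : NeZero p := ⟨hp.ne_zero⟩
  have hcop : IsCoprime (p : ℤ) (N : ℤ) :=
    Nat.isCoprime_iff_coprime.2 ((Nat.Prime.coprime_iff_not_dvd hp).2 hpN)
  obtain ⟨m0, h00, h10⟩ := exists_col hcop
  rw [relIndex_eq_card_of_reps (Gamma0 (N * p)) (Gamma0 N)
    (fun o : Option (ZMod p) => o.elim m0 (fun y => lowerMat ((N : ℤ) * (y.val : ℤ))))]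
  · rw [Nat.card_eq_fintype_card, Fintype.card_option, ZMod.card]
  · rintro (_ | y)
    · simp only [Option.elim_none]
      rw [mem_Gamma0_iff_dvd, h10]
    · simp only [Option.elim_some]
      rw [mem_Gamma0_iff_dvd, lowerMat_one_zero]
      exact dvd_mul_right _ _
  · rintro (_ | y) (_ | y') h
    · rfl
    · exfalso
      simp only [Option.elim_none, Option.elim_some] at h
      rw [inv_mul_mem_Gamma0_iff] at h
      simp only [lowerMat_zero_zero, lowerMat_one_zero, mul_one, h00, h10] at h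
      have h2 : ((N : ℤ) * (p : ℤ)) ∣ (N : ℤ) * ((p : ℤ) * (y'.val : ℤ) - 1) := by
        have : (N : ℤ) * ((p : ℤ) * (y'.val : ℤ) - 1) = (p : ℤ) * ((N : ℤ) * (y'.val : ℤ)) - (N : ℤ) := by ring
        rw [this]
        exact_mod_cast h
      have h3 : (p : ℤ) ∣ (p : ℤ) * (y'.val : ℤ) - 1 :=
        (mul_dvd_mul_iff_left (by exact_mod_cast hN)).1 h2
      have h4 : (p : ℤ) ∣ 1 := by
        have := dvd_sub (dvd_mul_right (p : ℤ) (y'.val : ℤ)) h3
        simpa using this
      exact hp.one_lt.ne' (by exact_mod_cast Int.eq_one_of_dvd_one (by positivity) h4)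
    · exfalso
      simp only [Option.elim_none, Option.elim_some] at h
      rw [inv_mul_mem_Gamma0_iff] at h
      simp only [lowerMat_zero_zero, lowerMat_one_zero, one_mul, h00, h10] at h
      have h2 : ((N : ℤ) * (p : ℤ)) ∣ (N : ℤ) * (1 - (y.val : ℤ) * (p : ℤ)) := by
        have : (N : ℤ) * (1 - (y.val : ℤ) * (p : ℤ)) = (N : ℤ) - (N : ℤ) * (y.val : ℤ) * (p : ℤ) := by ring
        rw [this]
        exact_mod_cast h
      have h3 : (p : ℤ) ∣ 1 - (y.val : ℤ) * (p : ℤ) :=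
        (mul_dvd_mul_iff_left (by exact_mod_cast hN)).1 h2
      have h4 : (p : ℤ) ∣ 1 := by
        have := dvd_add h3 (dvd_mul_left (p : ℤ) (y.val : ℤ))
        simpa using this
      exact hp.one_lt.ne' (by exact_mod_cast Int.eq_one_of_dvd_one (by positivity) h4)
    · simp only [Option.elim_some] at h
      rw [lowerMat_inj hN y y' h]
  · intro k hk
    by_cases hpk : (p : ℤ) ∣ k 0 0
    · refine ⟨none, ?_⟩
      simp only [Option.elim_none]
      rw [inv_mul_mem_Gamma0_iff, h00, h10]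
      obtain ⟨c, hc⟩ := (mem_Gamma0_iff_dvd N k).1 hk
      obtain ⟨a, ha⟩ := hpk
      rw [hc, ha]
      exact ⟨c - a, by push_cast; ring⟩
    · obtain ⟨y, hy⟩ := lowerMat_surj (p := p) k hk
        (((Int.prime_iff_natAbs_prime.2 (by simpa using hp)).coprime_iff_not_dvd.2 hpk).symm)
      exact ⟨some y, by simpa using hy⟩

theorem dedekindPsi_mul_prime_of_dvd {N p : ℕ} (hp : p.Prime) (hN : N ≠ 0) (hpN : p ∣ N) :
    dedekindPsi (N * p) = p * dedekindPsi N := by
  have hset : (N * p).divisors.filter Squarefree = N.divisors.filter Squarefree := by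
    ext d
    simp only [Finset.mem_filter, Nat.mem_divisors, ne_eq, mul_eq_zero, not_or]
    constructor
    · rintro ⟨⟨hd, -⟩, hsq⟩
      refine ⟨⟨?_, hN⟩, hsq⟩
      by_cases hpd : p ∣ d
      · obtain ⟨d', rfl⟩ := hpd
        have hcop : p.Coprime d' := (Nat.squarefree_mul_iff.1 hsq).1
        have hd' : d' ∣ N := by
          rw [mul_comm N p] at hd
          exact (Nat.mul_dvd_mul_iff_left hp.pos).1 hd
        exact hcop.mul_dvd_of_dvd_of_dvd hpN hd'
      · exact (((Nat.Prime.coprime_iff_not_dvd hp).2 hpd).symm).dvd_of_dvd_mul_right hd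
    · rintro ⟨⟨hd, -⟩, hsq⟩
      exact ⟨⟨hd.mul_right p, hN, hp.ne_zero⟩, hsq⟩
  rw [dedekindPsi, dedekindPsi, hset, Finset.mul_sum]
  refine Finset.sum_congr rfl fun d hd => ?_
  have hdN : d ∣ N := (Nat.mem_divisors.1 (Finset.mem_filter.1 hd).1).1
  rw [mul_comm N p, Nat.mul_div_assoc p hdN]

theorem dedekindPsi_mul_prime_of_not_dvd {N p : ℕ} (hp : p.Prime) (hN : N ≠ 0) (hpN : ¬ p ∣ N) :
    dedekindPsi (N * p) = (p + 1) * dedekindPsi N := by
  have hset : (N * p).divisors.filter Squarefree =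
      N.divisors.filter Squarefree ∪ (N.divisors.filter Squarefree).image (· * p) := by
    ext d
    simp only [Finset.mem_filter, Nat.mem_divisors, ne_eq, mul_eq_zero, not_or, Finset.mem_union,
      Finset.mem_image]
    constructor
    · rintro ⟨⟨hd, -⟩, hsq⟩
      by_cases hpd : p ∣ d
      · right
        obtain ⟨d', rfl⟩ := hpd
        have hd' : d' ∣ N := by
          rw [mul_comm N p] at hd
          exact (Nat.mul_dvd_mul_iff_left hp.pos).1 hd
        exact ⟨d', ⟨⟨hd', hN⟩, (Nat.squarefree_mul_iff.1 hsq).2.2⟩, mul_comm _ _⟩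
      · left
        exact ⟨⟨(((Nat.Prime.coprime_iff_not_dvd hp).2 hpd).symm).dvd_of_dvd_mul_right hd, hN⟩,
          hsq⟩
    · rintro (⟨⟨hd, -⟩, hsq⟩ | ⟨d', ⟨⟨hd', -⟩, hsq'⟩, rfl⟩)
      · exact ⟨⟨hd.mul_right p, hN, hp.ne_zero⟩, hsq⟩
      · refine ⟨⟨Nat.mul_dvd_mul_right hd' p, hN, hp.ne_zero⟩, ?_⟩
        have hcop : d'.Coprime p :=
          ((Nat.Prime.coprime_iff_not_dvd hp).2 fun h => hpN (h.trans hd')).symm
        exact (Nat.squarefree_mul hcop).2 ⟨hsq', hp.prime.squarefree⟩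
  have hdisj : Disjoint (N.divisors.filter Squarefree)
      ((N.divisors.filter Squarefree).image (· * p)) := by
    rw [Finset.disjoint_left]
    intro d hd hd2
    obtain ⟨d', -, rfl⟩ := Finset.mem_image.1 hd2
    exact hpN ((dvd_mul_left p d').trans (Nat.mem_divisors.1 (Finset.mem_filter.1 hd).1).1)
  rw [dedekindPsi, dedekindPsi, hset, Finset.sum_union hdisj,
    Finset.sum_image (fun x _ y _ h => Nat.eq_of_mul_eq_mul_right hp.pos h), add_mul, one_mul,
    Finset.mul_sum]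
  congr 1
  · refine Finset.sum_congr rfl fun d hd => ?_
    have hdN : d ∣ N := (Nat.mem_divisors.1 (Finset.mem_filter.1 hd).1).1
    rw [mul_comm N p, Nat.mul_div_assoc p hdN]
  · refine Finset.sum_congr rfl fun d _ => ?_
    rw [Nat.mul_div_mul_right _ _ hp.pos]

theorem Gamma0_one_eq_top : Gamma0 1 = ⊤ := by
  ext g
  simp only [Subgroup.mem_top, iff_true]
  rw [mem_Gamma0_iff_dvd]
  simp

/-- **A1.** The index of `Gamma0 N` in `SL(2, ℤ)` is `dedekindPsi N`. -/
theorem index_Gamma0 (N : ℕ) [NeZero N] : (Gamma0 N).index = dedekindPsi N := by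
  have key : ∀ n : ℕ, n ≠ 0 → (Gamma0 n).index = dedekindPsi n := by
    intro n
    refine induction_on_primes (motive := fun n => n ≠ 0 → (Gamma0 n).index = dedekindPsi n)
      ?_ ?_ ?_ n
    · intro h
      exact absurd rfl h
    · intro _
      rw [Gamma0_one_eq_top, Subgroup.index_top, dedekindPsi_one]
    · intro p a hp ih hpa
      have ha : a ≠ 0 := fun h => hpa (by rw [h, mul_zero])
      rw [mul_comm p a, ← Subgroup.relIndex_mul_index (Gamma0_mul_le a p), ih ha]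
      by_cases hdvd : p ∣ a
      · rw [relIndex_Gamma0_of_dvd hp ha hdvd, dedekindPsi_mul_prime_of_dvd hp ha hdvd]
      · rw [relIndex_Gamma0_of_not_dvd hp ha hdvd, dedekindPsi_mul_prime_of_not_dvd hp ha hdvd]
  exact key N (NeZero.ne N)

/-- **A1**, as a cardinality. -/
theorem card_quotient_Gamma0 (N : ℕ) [NeZero N] :
    Nat.card (SL(2, ℤ) ⧸ Gamma0 N) = dedekindPsi N := by
  rw [← Subgroup.index_eq_card, index_Gamma0]

end Fermat.Agent.S20.H77
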