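import Fermat.Agent.S20.H77.Basic

/-!
# The `⟨T⟩`-orbits on `SL(2, ℤ) ⧸ Gamma0 N` are counted by `cuspCount N`  (package A3 of S20)

Two cosets `[g]`, `[h]` lie in the same `⟨T⟩`-orbit iff `N ∣ (h₀₀ + n h₁₀) g₁₀ - h₁₀ g₀₀` for
some `n : ℤ`.  The orbits are parametrised by pairs `(d, v)`, `d ∣ N`, `v` a unit modulo
`gcd d (N / d)`, through the coset of any matrix with first column `(a, d)`, `a ≡ v`.
-/

open CongruenceSubgroup ModularGroup MatrixGroups ModularCurve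

namespace Fermat.Agent.S20.H77

/-- Bézout: a linear congruence `x + n * y ≡ 0 (mod m)` is solvable as soon as `gcd y m ∣ x`. -/
theorem exists_dvd_add_mul {m x y : ℤ} (h : (Int.gcd y m : ℤ) ∣ x) : ∃ n : ℤ, m ∣ x + n * y := by
  obtain ⟨q, hq⟩ := h
  refine ⟨-(Int.gcdA y m * q), Int.gcdB y m * q, ?_⟩
  rw [hq, Int.gcd_eq_gcd_ab]
  ring

/-- Number-theoretic core of the injectivity of the cusp parametrisation. -/
theorem cusp_inj_aux {N d d' : ℕ} (hN : N ≠ 0) (hd : d ∣ N) (hd' : d' ∣ N) {a a' n : ℤ}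
    (hc : IsCoprime a (d : ℤ)) (hc' : IsCoprime a' (d' : ℤ))
    (h : (N : ℤ) ∣ (a' + n * d') * d - d' * a) :
    d = d' ∧ ((Nat.gcd d (N / d) : ℕ) : ℤ) ∣ a' - a := by
  have hdN : (d : ℤ) ∣ (N : ℤ) := Int.natCast_dvd_natCast.2 hd
  have hd'N : (d' : ℤ) ∣ (N : ℤ) := Int.natCast_dvd_natCast.2 hd'
  have h1 : (d : ℤ) ∣ (d' : ℤ) := by
    have h2 : (d : ℤ) ∣ (d' : ℤ) * a := by
      have := dvd_sub (dvd_mul_left (d : ℤ) (a' + n * d')) (hdN.trans h)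
      simpa using this
    exact hc.symm.dvd_of_dvd_mul_right h2
  have h2 : (d' : ℤ) ∣ (d : ℤ) := by
    have h3 : (d' : ℤ) ∣ a' * (d : ℤ) := by
      have h4 : (d' : ℤ) ∣ (a' + n * d') * d - d' * a - (d' * (n * d - a)) :=
        dvd_sub (hd'N.trans h) (dvd_mul_right _ _)
      have h5 : (a' + n * d') * d - d' * a - (d' * (n * d - a)) = a' * (d : ℤ) := by ring
      rwa [h5] at h4
    exact hc'.symm.dvd_of_dvd_mul_left h3
  have hdd : d = d' := Nat.dvd_antisymm (Int.natCast_dvd_natCast.1 h1) (Int.natCast_dvd_natCast.1 h2)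
  subst hdd
  refine ⟨rfl, ?_⟩
  have hd0 : d ≠ 0 := fun h0 => hN (by rw [h0, zero_dvd_iff] at hd; exact hd)
  obtain ⟨e, rfl⟩ := hd
  have he : d * e / d = e := Nat.mul_div_cancel_left e (Nat.pos_of_ne_zero hd0)
  rw [he]
  have h6 : ((d : ℤ) * (e : ℤ)) ∣ (d : ℤ) * (a' - a + n * d) := by
    have : (d : ℤ) * (a' - a + n * d) = (a' + n * d) * d - d * a := by ring
    rw [this]
    exact_mod_cast h
  have h7 : (e : ℤ) ∣ a' - a + n * d := (mul_dvd_mul_iff_left (by exact_mod_cast hd0)).1 h6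
  have hg1 : ((Nat.gcd d e : ℕ) : ℤ) ∣ (d : ℤ) := Int.natCast_dvd_natCast.2 (Nat.gcd_dvd_left d e)
  have hg2 : ((Nat.gcd d e : ℕ) : ℤ) ∣ (e : ℤ) := Int.natCast_dvd_natCast.2 (Nat.gcd_dvd_right d e)
  have := dvd_sub (hg2.trans h7) (hg1.mul_left n)
  simpa using this

/-- Number-theoretic core of the surjectivity of the cusp parametrisation. -/
theorem cusp_surj_aux {N : ℕ} (hN : N ≠ 0) (a c a₂ : ℤ)
    (h : ((Nat.gcd (Int.gcd c N) (N / Int.gcd c N) : ℕ) : ℤ) ∣ a - c / (Int.gcd c N : ℤ) * a₂) :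
    ∃ n : ℤ, (N : ℤ) ∣ (a + n * c) * (Int.gcd c N : ℤ) - c * a₂ := by
  set d : ℕ := Int.gcd c N with hd
  have hd0 : 0 < Int.gcd c N := Int.gcd_pos_of_ne_zero_right _ (by exact_mod_cast hN)
  have hdN : d ∣ N := Int.natCast_dvd_natCast.1 (Int.gcd_dvd_right c N)
  have hdc : (d : ℤ) ∣ c := Int.gcd_dvd_left c N
  obtain ⟨e, he⟩ := hdN
  obtain ⟨c₁, hc₁⟩ := hdc
  have hdpos : 0 < d := hd0
  have hdz : (d : ℤ) ≠ 0 := by exact_mod_cast hdpos.ne'
  have hNd : N / d = e := by rw [he]; exact Nat.mul_div_cancel_left e hdpos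
  have hcd : c / (d : ℤ) = c₁ := by rw [hc₁]; exact Int.mul_ediv_cancel_left c₁ hdz
  rw [hNd, hcd] at h
  -- `c₁` and `e` are coprime
  have hcop : Int.gcd c₁ e = 1 := by
    have := Int.gcd_div_gcd_div_gcd (i := c) (j := (N : ℤ)) hd0
    rw [← hd, hcd] at this
    have hNe : (N : ℤ) / (d : ℤ) = (e : ℤ) := by
      rw [he]; push_cast; exact Int.mul_ediv_cancel_left _ hdz
    rwa [hNe] at this
  -- `gcd c e` divides `gcd d e`
  have hk : (Int.gcd c e : ℤ) ∣ ((Nat.gcd d e : ℕ) : ℤ) := by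
    have hk1 : (Int.gcd c e : ℤ) ∣ (e : ℤ) := Int.gcd_dvd_right c e
    have hk2 : (Int.gcd c e : ℤ) ∣ (d : ℤ) * c₁ := by
      rw [← hc₁]; exact Int.gcd_dvd_left c e
    have hk3 : IsCoprime (Int.gcd c e : ℤ) c₁ := by
      have : IsCoprime (e : ℤ) c₁ := (Int.isCoprime_iff_gcd_eq_one.2 hcop).symm
      exact this.of_isCoprime_of_dvd_left hk1
    have hk4 : (Int.gcd c e : ℤ) ∣ (d : ℤ) := hk3.dvd_of_dvd_mul_right hk2
    exact Int.natCast_dvd_natCast.2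
      (Nat.dvd_gcd (Int.natCast_dvd_natCast.1 hk4) (Int.natCast_dvd_natCast.1 hk1))
  obtain ⟨n, hn⟩ := exists_dvd_add_mul (m := (e : ℤ)) (x := a - c₁ * a₂) (y := c) (hk.trans h)
  refine ⟨n, ?_⟩
  have h1 : (a + n * c) * (d : ℤ) - c * a₂ = (d : ℤ) * (a - c₁ * a₂ + n * c) := by
    rw [hc₁]; ring
  rw [h1, he]
  push_cast
  exact mul_dvd_mul_left _ hn

/-- Orbit criterion for the action of `⟨T⟩` on the cosets of `Gamma0 N`. -/
theorem orbit_T_iff (N : ℕ) (g h : SL(2, ℤ)) :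
    (Quotient.mk'' (QuotientGroup.mk g) :
        MulAction.orbitRel.Quotient (Subgroup.zpowers T) (SL(2, ℤ) ⧸ Gamma0 N)) =
      Quotient.mk'' (QuotientGroup.mk h) ↔
      ∃ n : ℤ, (N : ℤ) ∣ (h 0 0 + n * h 1 0) * g 1 0 - h 1 0 * g 0 0 := by
  rw [Quotient.eq'', MulAction.orbitRel_apply, MulAction.mem_orbit_iff]
  constructor
  · rintro ⟨⟨t, ht⟩, hth⟩
    obtain ⟨n, rfl⟩ := Subgroup.mem_zpowers_iff.1 ht
    refine ⟨n, ?_⟩
    change (T ^ n) • (QuotientGroup.mk h : SL(2, ℤ) ⧸ Gamma0 N) = QuotientGroup.mk g at hth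
    rw [MulAction.Quotient.smul_mk, smul_eq_mul, mk_eq_mk_iff,
      T_zpow_mul_zero_zero, T_zpow_mul_one_zero] at hth
    exact hth
  · rintro ⟨n, hn⟩
    refine ⟨⟨T ^ n, Subgroup.zpow_mem_zpowers T n⟩, ?_⟩
    change (T ^ n) • (QuotientGroup.mk h : SL(2, ℤ) ⧸ Gamma0 N) = QuotientGroup.mk g
    rw [MulAction.Quotient.smul_mk, smul_eq_mul, mk_eq_mk_iff,
      T_zpow_mul_zero_zero, T_zpow_mul_one_zero]
    exact hn

/-- A unit of `ZMod g`, `g ∣ d`, lifts to an integer prime to `d`. -/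
theorem exists_lift_coprime {d g : ℕ} (hd : d ≠ 0) (hg : g ∣ d) (v : (ZMod g)ˣ) :
    ∃ a : ℤ, IsCoprime a (d : ℤ) ∧ (a : ZMod g) = (v : ZMod g) := by
  have : NeZero d := ⟨hd⟩
  obtain ⟨u, hu⟩ := ZMod.unitsMap_surjective hg v
  refine ⟨((u : ZMod d).val : ℤ), ?_, ?_⟩
  · exact Nat.isCoprime_iff_coprime.2 (ZMod.val_coe_unit_coprime u)
  · rw [← hu, ZMod.unitsMap_def]
    simp only [Int.cast_natCast, Units.coe_map, MonoidHom.coe_coe, ZMod.castHom_apply]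
    rw [ZMod.natCast_val]

/-- An integer prime to `m` gives a unit of `ZMod m`. -/
theorem exists_unit_of_isCoprime {m : ℕ} {a : ℤ} (h : IsCoprime a (m : ℤ)) :
    ∃ u : (ZMod m)ˣ, (u : ZMod m) = (a : ZMod m) := by
  obtain ⟨r, s, hrs⟩ := h
  have h1 : (a : ZMod m) * (r : ZMod m) = 1 := by
    have := congrArg (Int.cast : ℤ → ZMod m) hrs
    push_cast at this
    rw [ZMod.natCast_self, mul_zero, add_zero] at this
    rw [mul_comm]; exact this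
  exact ⟨Units.mkOfMulEqOne _ _ h1, rfl⟩

/-- The index type for the cusps of `Gamma0 N`: a divisor `d` of `N` and a unit modulo
`gcd d (N / d)`. -/
abbrev CuspIdx (N : ℕ) : Type := Σ d : N.divisors, (ZMod (Nat.gcd d (N / d)))ˣ

theorem exists_cuspRep (N : ℕ) (σ : CuspIdx N) : ∃ m : SL(2, ℤ), m 1 0 = ((σ.1 : ℕ) : ℤ) ∧
    ((m 0 0 : ℤ) : ZMod (Nat.gcd σ.1 (N / σ.1))) = (σ.2 : ZMod (Nat.gcd σ.1 (N / σ.1))) := by
  obtain ⟨⟨d, hd⟩, v⟩ := σ
  have hd0 : d ≠ 0 := fun h0 => by simp [h0] at hd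
  obtain ⟨a, ha, hav⟩ := exists_lift_coprime hd0 (Nat.gcd_dvd_left d (N / d)) v
  obtain ⟨m, hm0, hm1⟩ := exists_col ha
  exact ⟨m, hm1, by rw [hm0]; exact hav⟩

/-- A matrix representing the cusp with index `σ`. -/
noncomputable def cuspRep (N : ℕ) (σ : CuspIdx N) : SL(2, ℤ) := (exists_cuspRep N σ).choose

theorem cuspRep_one_zero (N : ℕ) (σ : CuspIdx N) : cuspRep N σ 1 0 = ((σ.1 : ℕ) : ℤ) :=
  (exists_cuspRep N σ).choose_spec.1

theorem cuspRep_zero_zero (N : ℕ) (σ : CuspIdx N) :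
    ((cuspRep N σ 0 0 : ℤ) : ZMod (Nat.gcd σ.1 (N / σ.1))) =
      (σ.2 : ZMod (Nat.gcd σ.1 (N / σ.1))) :=
  (exists_cuspRep N σ).choose_spec.2

/-- The parametrisation of the `⟨T⟩`-orbits on `SL(2, ℤ) ⧸ Gamma0 N` (the cusps of `Gamma0 N`). -/
noncomputable def cuspMap (N : ℕ) (σ : CuspIdx N) :
    MulAction.orbitRel.Quotient (Subgroup.zpowers T) (SL(2, ℤ) ⧸ Gamma0 N) :=
  Quotient.mk'' (QuotientGroup.mk (cuspRep N σ))

theorem cuspMap_injective (N : ℕ) [NeZero N] : Function.Injective (cuspMap N) := by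
  intro σ σ' h
  rw [cuspMap, cuspMap, orbit_T_iff] at h
  obtain ⟨n, hn⟩ := h
  have h1 := cuspRep_one_zero N σ
  have h1' := cuspRep_one_zero N σ'
  have h0 := cuspRep_zero_zero N σ
  have h0' := cuspRep_zero_zero N σ'
  have hc := isCoprime_col (cuspRep N σ)
  have hc' := isCoprime_col (cuspRep N σ')
  rw [h1] at hc hn
  rw [h1'] at hc' hn
  obtain ⟨⟨d, hd⟩, v⟩ := σ
  obtain ⟨⟨d', hd'⟩, v'⟩ := σ'
  simp only at h1 h1' h0 h0' hc hc' hn
  obtain ⟨hdd, hdiv⟩ := cusp_inj_aux (NeZero.ne N) (Nat.mem_divisors.1 hd).1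
    (Nat.mem_divisors.1 hd').1 hc hc' hn
  subst hdd
  have hv : v' = v := by
    apply Units.ext
    rw [← h0, ← h0']
    have := (ZMod.intCast_zmod_eq_zero_iff_dvd _ _).2 hdiv
    push_cast at this
    exact sub_eq_zero.1 this
  rw [hv]

theorem cuspMap_surjective (N : ℕ) [NeZero N] : Function.Surjective (cuspMap N) := by
  intro x
  obtain ⟨q, rfl⟩ := Quotient.mk''_surjective x
  obtain ⟨g, rfl⟩ := QuotientGroup.mk_surjective q
  have hN : N ≠ 0 := NeZero.ne N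
  set c : ℤ := g 1 0 with hc
  set a : ℤ := g 0 0 with ha
  set d : ℕ := Int.gcd c N with hd
  have hd0 : 0 < d := Int.gcd_pos_of_ne_zero_right _ (by exact_mod_cast hN)
  have hdN : d ∣ N := Int.natCast_dvd_natCast.1 (Int.gcd_dvd_right c N)
  have hdc : (d : ℤ) ∣ c := Int.gcd_dvd_left c N
  have hdmem : d ∈ N.divisors := Nat.mem_divisors.2 ⟨hdN, hN⟩
  set k : ℕ := Nat.gcd d (N / d) with hk
  have hkd : (k : ℤ) ∣ (d : ℤ) := Int.natCast_dvd_natCast.2 (Nat.gcd_dvd_left _ _)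
  -- `a` is a unit modulo `k`
  have hak : IsCoprime a (k : ℤ) :=
    (isCoprime_col g).of_isCoprime_of_dvd_right (hkd.trans hdc)
  -- `c / d` is a unit modulo `k`
  have hck : IsCoprime (c / (d : ℤ)) (k : ℤ) := by
    have h1 : Int.gcd (c / (d : ℤ)) ((N : ℤ) / (d : ℤ)) = 1 := Int.gcd_div_gcd_div_gcd hd0
    have h2 : (k : ℤ) ∣ (N : ℤ) / (d : ℤ) := by
      have : (N : ℤ) / (d : ℤ) = ((N / d : ℕ) : ℤ) := (Int.natCast_div N d).symm
      rw [this]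
      exact Int.natCast_dvd_natCast.2 (Nat.gcd_dvd_right _ _)
    exact (Int.isCoprime_iff_gcd_eq_one.2 h1).of_isCoprime_of_dvd_right h2
  obtain ⟨ua, hua⟩ := exists_unit_of_isCoprime hak
  obtain ⟨uc, huc⟩ := exists_unit_of_isCoprime hck
  refine ⟨⟨⟨d, hdmem⟩, ua * uc⁻¹⟩, ?_⟩
  rw [cuspMap, orbit_T_iff]
  have h1 := cuspRep_one_zero N ⟨⟨d, hdmem⟩, ua * uc⁻¹⟩
  have h0 := cuspRep_zero_zero N ⟨⟨d, hdmem⟩, ua * uc⁻¹⟩
  simp only at h1 h0
  rw [h1]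
  refine cusp_surj_aux hN a c _ ?_
  rw [← ZMod.intCast_zmod_eq_zero_iff_dvd]
  push_cast
  rw [h0, ← hua, ← huc, Units.val_mul]
  have hmul : (uc : ZMod k) * ((ua : ZMod k) * ((uc⁻¹ : (ZMod k)ˣ) : ZMod k)) = ua := by
    rw [mul_left_comm, Units.mul_inv, mul_one]
  rw [hmul, sub_self]

/-- **A3.** The number of `⟨T⟩`-orbits on `SL(2, ℤ) ⧸ Gamma0 N` is `cuspCount N`. -/
theorem card_orbits_T (N : ℕ) [NeZero N] :
    Nat.card (MulAction.orbitRel.Quotient (Subgroup.zpowers T) (SL(2, ℤ) ⧸ Gamma0 N)) =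
      cuspCount N := by
  rw [← Nat.card_congr (Equiv.ofBijective (cuspMap N) ⟨cuspMap_injective N, cuspMap_surjective N⟩)]
  have hne : ∀ d : N.divisors, NeZero (Nat.gcd d (N / d)) := fun d =>
    ⟨Nat.gcd_ne_zero_left (Nat.pos_of_mem_divisors d.2).ne'⟩
  have hfin : ∀ d : N.divisors, Finite (ZMod (Nat.gcd d (N / d)))ˣ := fun d => by
    have := hne d
    infer_instance
  rw [Nat.card_sigma, cuspCount, ← Finset.sum_coe_sort N.divisors]
  refine Finset.sum_congr rfl fun d _ => ?_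
  have := hne d
  rw [Nat.card_eq_fintype_card, ZMod.card_units_eq_totient]

end Fermat.Agent.S20.H77
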