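import Mathlib
import Fermat.Prelude.Def_ModularCurve_GenusNumerics

/-!
# Cosets of `Gamma0 N` in `SL(2, ℤ)`: the basic criterion

`g • Gamma0 N = h • Gamma0 N` iff the first columns of `g` and `h` are proportional modulo `N`.
Everything in the combinatorial package of S20 goes through this criterion.
-/

open CongruenceSubgroup ModularGroup MatrixGroups

namespace Fermat.Agent.S20.H77

theorem inv_mul_one_zero (g h : SL(2, ℤ)) :
    (g⁻¹ * h) 1 0 = g 0 0 * h 1 0 - g 1 0 * h 0 0 := by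
  rw [Matrix.SpecialLinearGroup.coe_mul, Matrix.SpecialLinearGroup.coe_inv,
    Matrix.adjugate_fin_two, Matrix.mul_apply, Fin.sum_univ_two]
  simp
  ring

theorem inv_mul_mem_Gamma0_iff (N : ℕ) (g h : SL(2, ℤ)) :
    g⁻¹ * h ∈ Gamma0 N ↔ (N : ℤ) ∣ g 0 0 * h 1 0 - g 1 0 * h 0 0 := by
  rw [Gamma0_mem, ZMod.intCast_zmod_eq_zero_iff_dvd, inv_mul_one_zero]

theorem mem_Gamma0_iff_dvd (N : ℕ) (g : SL(2, ℤ)) : g ∈ Gamma0 N ↔ (N : ℤ) ∣ g 1 0 := by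
  rw [Gamma0_mem, ZMod.intCast_zmod_eq_zero_iff_dvd]

/-- **A0.** Two cosets of `Gamma0 N` agree iff the first columns are proportional modulo `N`. -/
theorem mk_eq_mk_iff (N : ℕ) (g h : SL(2, ℤ)) :
    (QuotientGroup.mk g : SL(2, ℤ) ⧸ Gamma0 N) = QuotientGroup.mk h ↔
      (N : ℤ) ∣ g 0 0 * h 1 0 - g 1 0 * h 0 0 := by
  rw [QuotientGroup.eq, inv_mul_mem_Gamma0_iff]

/-- The same criterion in `ZMod N`. -/
theorem mk_eq_mk_iff' (N : ℕ) (g h : SL(2, ℤ)) :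
    (QuotientGroup.mk g : SL(2, ℤ) ⧸ Gamma0 N) = QuotientGroup.mk h ↔
      (g 0 0 : ZMod N) * (h 1 0 : ZMod N) = (g 1 0 : ZMod N) * (h 0 0 : ZMod N) := by
  rw [mk_eq_mk_iff, ← ZMod.intCast_zmod_eq_zero_iff_dvd]
  push_cast
  exact sub_eq_zero

theorem isCoprime_col (g : SL(2, ℤ)) : IsCoprime (g 0 0) (g 1 0) := by
  have := g.det_coe
  rw [Matrix.det_fin_two] at this
  exact ⟨g 1 1, - g 0 1, by linarith⟩

theorem exists_col {a c : ℤ} (h : IsCoprime a c) : ∃ g : SL(2, ℤ), g 0 0 = a ∧ g 1 0 = c := by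
  obtain ⟨x, y, hxy⟩ := h
  refine ⟨⟨!![a, -y; c, x], ?_⟩, rfl, rfl⟩
  rw [Matrix.det_fin_two_of]; linarith

/-- The matrix `[[a, -1], [1, 0]]`, whose first column is `(a, 1)`. -/
def colOne (a : ℤ) : SL(2, ℤ) := ⟨!![a, -1; 1, 0], by rw [Matrix.det_fin_two_of]; ring⟩

@[simp] theorem colOne_zero_zero (a : ℤ) : colOne a 0 0 = a := rfl
@[simp] theorem colOne_one_zero (a : ℤ) : colOne a 1 0 = 1 := rfl

/-- The matrix `[[1, 0], [n, 1]]`, whose first column is `(1, n)`. -/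
def lowerMat (n : ℤ) : SL(2, ℤ) := ⟨!![1, 0; n, 1], by rw [Matrix.det_fin_two_of]; ring⟩

@[simp] theorem lowerMat_zero_zero (n : ℤ) : lowerMat n 0 0 = 1 := rfl
@[simp] theorem lowerMat_one_zero (n : ℤ) : lowerMat n 1 0 = n := rfl

theorem S_mul_zero_zero (g : SL(2, ℤ)) : (S * g) 0 0 = - g 1 0 := by
  rw [Matrix.SpecialLinearGroup.coe_mul, coe_S, Matrix.mul_apply, Fin.sum_univ_two]
  simp

theorem S_mul_one_zero (g : SL(2, ℤ)) : (S * g) 1 0 = g 0 0 := by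
  rw [Matrix.SpecialLinearGroup.coe_mul, coe_S, Matrix.mul_apply, Fin.sum_univ_two]
  simp

theorem T_zpow_mul_zero_zero (g : SL(2, ℤ)) (n : ℤ) : (T ^ n * g) 0 0 = g 0 0 + n * g 1 0 := by
  rw [Matrix.SpecialLinearGroup.coe_mul, coe_T_zpow, Matrix.mul_apply, Fin.sum_univ_two]
  simp

theorem T_zpow_mul_one_zero (g : SL(2, ℤ)) (n : ℤ) : (T ^ n * g) 1 0 = g 1 0 := by
  rw [Matrix.SpecialLinearGroup.coe_mul, coe_T_zpow, Matrix.mul_apply, Fin.sum_univ_two]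
  simp

theorem ST_mul_zero_zero (g : SL(2, ℤ)) : (S * T * g) 0 0 = - g 1 0 := by
  rw [mul_assoc, S_mul_zero_zero]
  have := T_zpow_mul_one_zero g 1
  rw [zpow_one] at this
  rw [this]

theorem ST_mul_one_zero (g : SL(2, ℤ)) : (S * T * g) 1 0 = g 0 0 + g 1 0 := by
  rw [mul_assoc, S_mul_one_zero]
  have := T_zpow_mul_zero_zero g 1
  rw [zpow_one, one_mul] at this
  rw [this]

/-- Membership of a coset in the fixed points of `m`, in terms of first columns. -/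
theorem mk_mem_fixedBy_iff (N : ℕ) (m g : SL(2, ℤ)) :
    (QuotientGroup.mk g : SL(2, ℤ) ⧸ Gamma0 N) ∈ MulAction.fixedBy (SL(2, ℤ) ⧸ Gamma0 N) m ↔
      ((m * g) 0 0 : ZMod N) * (g 1 0 : ZMod N) = ((m * g) 1 0 : ZMod N) * (g 0 0 : ZMod N) := by
  rw [MulAction.mem_fixedBy, MulAction.Quotient.smul_mk, smul_eq_mul, mk_eq_mk_iff']

end Fermat.Agent.S20.H77
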