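/-
S20 package G3 (Decomp), independent backup by helper77: weights of a frame and the dimension
formulas `finrank M_k(Γ₀(N)) = ∑ finrank M_{k - a x}(SL₂(ℤ))`,
`finrank S_k(Γ₀(N)) = ∑ finrank M_{k + a x - 12}(SL₂(ℤ))`.
The dual frame (package G2, `exists_dual_frame`) enters only as an explicit hypothesis.
-/
import Fermat.Agent.S20.FrameLemmas
import Fermat.Agent.S20.LevelOne

set_option autoImplicit false

open UpperHalfPlane ModularForm CongruenceSubgroup Matrix.SpecialLinearGroup Filter
open scoped MatrixGroups ModularForm Manifold Topology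

noncomputable section

namespace Fermat.Agent.S20.H77

open Fermat.Agent.S20

variable {N : ℕ} [NeZero N]

set_option linter.unusedSectionVars false

/-- The coercion of modular forms to functions, as a linear map. -/
def coeM (N : ℕ) (k : ℤ) : ModularForm (Γ0 N) k →ₗ[ℂ] (ℍ → ℂ) where
  toFun f := f
  map_add' _ _ := rfl
  map_smul' _ _ := rfl

theorem coeM_injective (k : ℤ) : Function.Injective (coeM N k) := fun _ _ h => DFunLike.coe_injective h

/-- The coercion of cusp forms to functions, as a linear map. -/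
def coeS (N : ℕ) (k : ℤ) : CuspForm (Γ0 N) k →ₗ[ℂ] (ℍ → ℂ) where
  toFun f := f
  map_add' _ _ := rfl
  map_smul' _ _ := rfl

theorem coeS_injective (k : ℤ) : Function.Injective (coeS N k) := fun _ _ h => DFunLike.coe_injective h

theorem exists_modularForm_mul {m l k : ℤ} (h : m + l = k) (r : ModularForm 𝒮ℒ m)
    (f : ModularForm (Γ0 N) l) : ∃ g : ModularForm (Γ0 N) k, (g : ℍ → ℂ) = fun τ => r τ * f τ := by
  subst h
  exact ⟨(resLO N r).mul f, rfl⟩

theorem exists_cuspForm_mul {m l k : ℤ} (h : l + m = k) (r : ModularForm 𝒮ℒ m)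
    (f : CuspForm (Γ0 N) l) : ∃ g : CuspForm (Γ0 N) k, (g : ℍ → ℂ) = fun τ => r τ * f τ := by
  subst h
  exact ⟨f.mulModularForm (resLO N r), by ext τ; simp [mul_comm]⟩

theorem exists_modularForm_sum {ι : Type*} (s : Finset ι) (k : ℤ) (u : ι → ℍ → ℂ)
    (h : ∀ i ∈ s, ∃ f : ModularForm (Γ0 N) k, (f : ℍ → ℂ) = u i) :
    ∃ f : ModularForm (Γ0 N) k, (f : ℍ → ℂ) = fun τ => ∑ i ∈ s, u i τ := by
  classical
  induction s using Finset.induction_on with
  | empty => exact ⟨0, by ext τ; simp⟩
  | insert i s hi ih =>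
    obtain ⟨f, hf⟩ := ih fun j hj => h j (Finset.mem_insert_of_mem hj)
    obtain ⟨g, hg⟩ := h i (Finset.mem_insert_self i s)
    refine ⟨g + f, ?_⟩
    ext τ
    rw [Finset.sum_insert hi, ← hg]
    simp [hf]

theorem exists_cuspForm_sum {ι : Type*} (s : Finset ι) (k : ℤ) (u : ι → ℍ → ℂ)
    (h : ∀ i ∈ s, ∃ f : CuspForm (Γ0 N) k, (f : ℍ → ℂ) = u i) :
    ∃ f : CuspForm (Γ0 N) k, (f : ℍ → ℂ) = fun τ => ∑ i ∈ s, u i τ := by
  classical
  induction s using Finset.induction_on with
  | empty => exact ⟨0, by ext τ; simp⟩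
  | insert i s hi ih =>
    obtain ⟨f, hf⟩ := ih fun j hj => h j (Finset.mem_insert_of_mem hj)
    obtain ⟨g, hg⟩ := h i (Finset.mem_insert_self i s)
    refine ⟨g + f, ?_⟩
    ext τ
    rw [Finset.sum_insert hi, ← hg]
    simp [hf]

variable {a : X N → ℤ} {F : ∀ x, ModularForm (Γ0 N) (a x)}

/-- The map `r ↦ ∑ x, r x * F x` from families of level-one forms to functions. -/
def comboM (F : ∀ x, ModularForm (Γ0 N) (a x)) (k : ℤ) :
    (∀ x, ModularForm 𝒮ℒ (k - a x)) →ₗ[ℂ] (ℍ → ℂ) where
  toFun r := fun τ => ∑ x, r x τ * F x τ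
  map_add' r s := by
    ext τ
    simp [add_mul, Finset.sum_add_distrib]
  map_smul' c r := by
    ext τ
    simp [Finset.mul_sum, mul_assoc]

theorem comboM_apply (k : ℤ) (r : ∀ x, ModularForm 𝒮ℒ (k - a x)) (τ : ℍ) :
    comboM F k r τ = ∑ x, r x τ * F x τ := rfl

theorem comboM_injective (hF : IsFrame a F) (k : ℤ) : Function.Injective (comboM F k) := by
  rw [← LinearMap.ker_eq_bot, LinearMap.ker_eq_bot']
  intro r hr
  funext x
  exact hF.indep r (fun τ => by simpa [comboM_apply] using congrFun hr τ) x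

theorem range_comboM (hF : IsFrame a F) (k : ℤ) :
    LinearMap.range (comboM F k) = LinearMap.range (coeM N k) := by
  apply le_antisymm
  · rintro _ ⟨r, rfl⟩
    obtain ⟨f, hf⟩ := exists_modularForm_sum (N := N) Finset.univ k (fun x τ => r x τ * F x τ)
      (fun x _ => exists_modularForm_mul (by ring) (r x) (F x))
    exact ⟨f, hf⟩
  · rintro _ ⟨f, rfl⟩
    obtain ⟨r, hr⟩ := hF.gen f
    exact ⟨r, by ext τ; exact (hr τ).symm⟩

/-- **G3b.** Modular forms of weight `k` on `Γ₀(N)` are uniquely `∑ r_x F_x`. -/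
theorem finrank_modularForm (hF : IsFrame a F) (k : ℤ) :
    Module.finrank ℂ (ModularForm (Γ0 N) k) = ∑ x, Module.finrank ℂ (ModularForm 𝒮ℒ (k - a x)) := by
  rw [← LinearMap.finrank_range_of_inj (coeM_injective (N := N) k), ← range_comboM hF k,
    LinearMap.finrank_range_of_inj (comboM_injective hF k), Module.finrank_pi_fintype]

/-! ### The cusp side -/

/-- The coset form of a vanishing level-one combination of cusp forms. -/
theorem cosetFun_sum_eq_zero {ι : Type*} [Fintype ι] {b m : ι → ℤ} {k : ℤ}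
    (hw : ∀ i, m i + b i = k) (G : ∀ i, CuspForm (Γ0 N) (b i)) (s : ∀ i, ModularForm 𝒮ℒ (m i))
    (h : ∀ τ, ∑ i, s i τ * G i τ = 0) (c : X N) (τ : ℍ) :
    ∑ i, s i τ * cosetFun (G i) c τ = 0 := by
  induction c using QuotientGroup.induction_on with
  | H g =>
    obtain ⟨γ, rfl⟩ : ∃ γ : SL(2, ℤ), g = γ⁻¹ := ⟨g⁻¹, (inv_inv g).symm⟩
    have hd : denom γ τ ≠ 0 := denom_ne_zero γ τ
    have key : ∀ i, s i τ * cosetFun (G i) (QuotientGroup.mk γ⁻¹ : X N) τ =
        denom γ τ ^ (-k) * (s i (γ • τ) * G i (γ • τ)) := by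
      intro i
      rw [cosetFun_mk_inv_apply, levelOne_smul_apply]
      have e : denom γ τ ^ (-k) * denom γ τ ^ (m i) = denom γ τ ^ (-b i) := by
        rw [← zpow_add₀ hd]; congr 1; have := hw i; linarith
      calc s i τ * (G i (γ • τ) * denom γ τ ^ (-b i))
          = s i τ * (G i (γ • τ) * (denom γ τ ^ (-k) * denom γ τ ^ (m i))) := by rw [e]
        _ = denom γ τ ^ (-k) * (denom γ τ ^ m i * s i τ * G i (γ • τ)) := by ring
    rw [Finset.sum_congr rfl fun i _ => key i, ← Finset.mul_sum, h, mul_zero]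

/-- The map `s ↦ ∑ x, s x * G x` from families of level-one forms to functions. -/
def comboS {b m : X N → ℤ} (G : ∀ x, CuspForm (Γ0 N) (b x)) :
    (∀ x, ModularForm 𝒮ℒ (m x)) →ₗ[ℂ] (ℍ → ℂ) where
  toFun s := fun τ => ∑ x, s x τ * G x τ
  map_add' r s := by
    ext τ
    simp [add_mul, Finset.sum_add_distrib]
  map_smul' c r := by
    ext τ
    simp [Finset.mul_sum, mul_assoc]

theorem comboS_apply {b m : X N → ℤ} (G : ∀ x, CuspForm (Γ0 N) (b x))
    (s : ∀ x, ModularForm 𝒮ℒ (m x)) (τ : ℍ) : comboS G s τ = ∑ x, s x τ * G x τ := rfl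

/-- The first duality relation makes the dual family independent over level one. -/
theorem comboS_injective {b m : X N → ℤ} {k : ℤ} (hw : ∀ x, m x + b x = k)
    (G : ∀ x, CuspForm (Γ0 N) (b x))
    (h1 : ∀ (x y : X N) (τ : ℍ), ∑ c, cosetFun (G x) c τ * cosetFun (F y) c τ =
      if x = y then ModularForm.discriminant τ else 0) :
    Function.Injective (comboS (m := m) G) := by
  rw [← LinearMap.ker_eq_bot, LinearMap.ker_eq_bot']
  intro s hs
  funext y
  ext τ
  have h0 : ∀ c : X N, ∑ x, s x τ * cosetFun (G x) c τ = 0 :=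
    fun c => cosetFun_sum_eq_zero hw G s (fun τ => by simpa [comboS_apply] using congrFun hs τ) c τ
  have h2 : ∑ c : X N, (∑ x, s x τ * cosetFun (G x) c τ) * cosetFun (F y) c τ = 0 := by
    simp [h0]
  have h3 : ∑ c : X N, (∑ x, s x τ * cosetFun (G x) c τ) * cosetFun (F y) c τ =
      s y τ * ModularForm.discriminant τ := by
    simp_rw [Finset.sum_mul]
    rw [Finset.sum_comm]
    simp_rw [mul_assoc, ← Finset.mul_sum, h1]
    simp
  rw [h3] at h2
  simpa [ModularForm.discriminant_ne_zero τ] using h2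

/-- Coset translates of a cusp form vanish at `i∞`. -/
theorem isZeroAtImInfty_cosetFun_cusp {k : ℤ} (f : CuspForm (Γ0 N) k) (c : X N) :
    IsZeroAtImInfty (cosetFun f c) := by
  induction c using QuotientGroup.induction_on with
  | H g =>
    rw [cosetFun_mk]
    exact CuspFormClass.zero_at_infty_slash f g⁻¹

/-- The trace pairing of a cusp form with a modular form. -/
def pair {k l : ℤ} (f : CuspForm (Γ0 N) k) (g : ModularForm (Γ0 N) l) : ℍ → ℂ :=
  ∑ c : X N, cosetFun f c * cosetFun g c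

theorem pair_apply {k l : ℤ} (f : CuspForm (Γ0 N) k) (g : ModularForm (Γ0 N) l) (τ : ℍ) :
    pair f g τ = ∑ c : X N, cosetFun f c τ * cosetFun g c τ := by
  simp [pair, Finset.sum_apply]

theorem mdifferentiable_pair {k l : ℤ} (f : CuspForm (Γ0 N) k) (g : ModularForm (Γ0 N) l) :
    MDiff (pair f g) :=
  MDifferentiable.sum fun c _ => (mdifferentiable_cosetFun f c).mul (mdifferentiable_cosetFun g c)

theorem isZeroAtImInfty_pair {k l : ℤ} (f : CuspForm (Γ0 N) k) (g : ModularForm (Γ0 N) l) :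
    IsZeroAtImInfty (pair f g) := by
  unfold pair
  have h : ∀ s : Finset (X N),
      IsZeroAtImInfty (∑ c ∈ s, cosetFun f c * cosetFun g c : ℍ → ℂ) := by
    intro s
    classical
    induction s using Finset.induction_on with
    | empty =>
      rw [Finset.sum_empty]
      exact zero_zeroAtFilter atImInfty
    | insert c s hc ih =>
      rw [Finset.sum_insert hc]
      exact ZeroAtFilter.add ((isZeroAtImInfty_cosetFun_cusp f c).mul_boundedAtFilter
        (isBoundedAtImInfty_cosetFun g c)) ih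
  exact h _

theorem pair_slash {k l : ℤ} (f : CuspForm (Γ0 N) k) (g : ModularForm (Γ0 N) l) (γ : SL(2, ℤ)) :
    pair f g ∣[k + l] γ = pair f g := by
  ext τ
  rw [SL_slash_apply, pair_apply, pair_apply]
  have hd : denom γ τ ≠ 0 := denom_ne_zero γ τ
  have h1 : ∀ c : X N, cosetFun f c (γ • τ) * cosetFun g c (γ • τ) =
      denom γ τ ^ (k + l) * (cosetFun f (γ⁻¹ • c) τ * cosetFun g (γ⁻¹ • c) τ) := by
    intro c
    rw [cosetFun_smul_apply, cosetFun_smul_apply, zpow_add₀ hd]
    ring
  have h2 : ∑ c : X N, cosetFun f (γ⁻¹ • c) τ * cosetFun g (γ⁻¹ • c) τ =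
      ∑ c : X N, cosetFun f c τ * cosetFun g c τ :=
    Equiv.sum_comp (MulAction.toPerm γ⁻¹ : Equiv.Perm (X N))
      (fun c => cosetFun f c τ * cosetFun g c τ)
  rw [Finset.sum_congr rfl fun c _ => h1 c, ← Finset.mul_sum, h2, mul_comm, ← mul_assoc,
    ← zpow_add₀ hd]
  simp

/-- Division of the trace pairing by `Δ`. -/
theorem exists_levelOne_pair {k l : ℤ} (f : CuspForm (Γ0 N) k) (g : ModularForm (Γ0 N) l) :
    ∃ s : ModularForm 𝒮ℒ (k + l - 12), ∀ τ, pair f g τ = ModularForm.discriminant τ * s τ :=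
  levelOne_cusp_of_invariant (mdifferentiable_pair f g) (pair_slash f g) (isZeroAtImInfty_pair f g)

theorem range_comboS (k : ℤ) (G : ∀ x, CuspForm (Γ0 N) (12 - a x))
    (h2 : ∀ (c c' : X N) (τ : ℍ), ∑ x, cosetFun (F x) c τ * cosetFun (G x) c' τ =
      if c = c' then ModularForm.discriminant τ else 0) :
    LinearMap.range (comboS (m := fun x => k + a x - 12) G) = LinearMap.range (coeS N k) := by
  apply le_antisymm
  · rintro _ ⟨s, rfl⟩
    obtain ⟨f, hf⟩ := exists_cuspForm_sum (N := N) Finset.univ k (fun x τ => s x τ * G x τ)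
      (fun x _ => exists_cuspForm_mul (by ring) (s x) (G x))
    exact ⟨f, hf⟩
  · rintro _ ⟨f, rfl⟩
    choose s hs using fun x => exists_levelOne_pair f (F x)
    refine ⟨s, ?_⟩
    ext τ
    apply mul_left_cancel₀ (ModularForm.discriminant_ne_zero τ)
    have e1 : ModularForm.discriminant τ * comboS G s τ =
        ∑ x, pair f (F x) τ * cosetFun (G x) (QuotientGroup.mk 1 : X N) τ := by
      rw [comboS_apply, Finset.mul_sum]
      refine Finset.sum_congr rfl fun x _ => ?_
      rw [hs x τ, cosetFun_one, mul_assoc]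
    have e2 : ∑ x, pair f (F x) τ * cosetFun (G x) (QuotientGroup.mk 1 : X N) τ =
        ∑ c : X N, cosetFun f c τ *
          ∑ x, cosetFun (F x) c τ * cosetFun (G x) (QuotientGroup.mk 1 : X N) τ := by
      simp_rw [pair_apply, Finset.sum_mul, Finset.mul_sum]
      rw [Finset.sum_comm]
      refine Finset.sum_congr rfl fun c _ => Finset.sum_congr rfl fun x _ => ?_
      ring
    rw [e1, e2]
    simp_rw [h2]
    simp [coeS, mul_comm]

/-- **G3c**, with the dual frame as a hypothesis. -/
theorem finrank_cuspForm_of_dual (k : ℤ) (G : ∀ x, CuspForm (Γ0 N) (12 - a x))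
    (h1 : ∀ (x y : X N) (τ : ℍ), ∑ c, cosetFun (G x) c τ * cosetFun (F y) c τ =
      if x = y then ModularForm.discriminant τ else 0)
    (h2 : ∀ (c c' : X N) (τ : ℍ), ∑ x, cosetFun (F x) c τ * cosetFun (G x) c' τ =
      if c = c' then ModularForm.discriminant τ else 0) :
    Module.finrank ℂ (CuspForm (Γ0 N) k) =
      ∑ x, Module.finrank ℂ (ModularForm 𝒮ℒ (k + a x - 12)) := by
  rw [← LinearMap.finrank_range_of_inj (coeS_injective (N := N) k), ← range_comboS k G h2,
    LinearMap.finrank_range_of_inj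
      (comboS_injective (F := F) (m := fun x => k + a x - 12) (k := k) (fun x => by ring) G h1),
    Module.finrank_pi_fintype]

/-! ### Weights of a frame -/

theorem neg_one_mem_Γ0 (N : ℕ) : (-1 : GL (Fin 2) ℝ) ∈ Γ0 N := by
  refine Subgroup.mem_map.2 ⟨-1, ?_, by ext; simp⟩
  rw [Gamma0_mem]
  simp

theorem cosetFun_eq_zero_of_coe_eq_zero {E : Type*} [FunLike E ℍ ℂ] {k : ℤ}
    [SlashInvariantFormClass E (Γ0 N) k] (f : E) (h : (f : ℍ → ℂ) = 0) (c : X N) :
    cosetFun f c = 0 := by
  induction c using QuotientGroup.induction_on with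
  | H g => rw [cosetFun_mk, h, SlashAction.zero_slash]

/-- A cusp form of weight `≤ 0` on `Γ₀(N)` vanishes. -/
theorem cusp_coe_eq_zero_of_nonpos_weight {k : ℤ} (hk : k ≤ 0) (f : CuspForm (Γ0 N) k) :
    (f : ℍ → ℂ) = 0 := by
  let f' : ModularForm (Γ0 N) k :=
    { toFun := f
      slash_action_eq' := f.slash_action_eq'
      holo' := f.holo'
      bdd_at_cusps' := fun hc γ hγ => (f.zero_at_cusps' hc γ hγ).boundedAtFilter }
  rcases hk.lt_or_eq with hlt | rfl
  · have h0 : f' = 0 := ModularForm.isZero_of_neg_weight hlt f'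
    have : (f' : ℍ → ℂ) = 0 := by rw [h0]; rfl
    exact this
  · obtain ⟨c, hc⟩ := ModularForm.eq_const_of_weight_zero f'
    have hc' : (f : ℍ → ℂ) = Function.const ℍ c := hc
    have hz : IsZeroAtImInfty (f : ℍ → ℂ) := by
      have := CuspFormClass.zero_at_infty_slash f (1 : SL(2, ℤ))
      rwa [SlashAction.slash_one] at this
    rw [hc'] at hz
    have hc0 : c = 0 := tendsto_nhds_unique tendsto_const_nhds hz
    rw [hc', hc0]
    rfl

/-- The members of a frame are nonzero at some coset translate, at every point. -/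
theorem exists_cosetFun_ne_zero_of_isFrame (hF : IsFrame a F) (x : X N) (τ : ℍ) :
    ∃ c : X N, cosetFun (F x) c τ ≠ 0 := by
  by_contra hcon
  simp only [not_exists, not_not] at hcon
  exact hF.1 τ (Matrix.det_eq_zero_of_column_eq_zero x fun c => by simpa [frameMatrix] using hcon c)

theorem coe_ne_zero_of_isFrame (hF : IsFrame a F) (x : X N) : (F x : ℍ → ℂ) ≠ 0 := by
  intro h
  obtain ⟨c, hc⟩ := exists_cosetFun_ne_zero_of_isFrame hF x UpperHalfPlane.I
  exact hc (by rw [cosetFun_eq_zero_of_coe_eq_zero (F x) h c]; rfl)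

theorem weight_nonneg_of_isFrame (hF : IsFrame a F) (x : X N) : 0 ≤ a x := by
  by_contra hneg
  exact coe_ne_zero_of_isFrame hF x (by rw [ModularForm.isZero_of_neg_weight (not_le.1 hneg) (F x)]; rfl)

theorem weight_even_of_isFrame (hF : IsFrame a F) (x : X N) : Even (a x) := by
  by_contra hodd
  exact coe_ne_zero_of_isFrame hF x (by
    rw [ModularForm.eq_zero_of_neg_one_mem (neg_one_mem_Γ0 N) (Int.not_even_iff_odd.1 hodd) (F x)]
    rfl)

/-- **G3a**, with the dual frame as a hypothesis. -/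
theorem weight_range_of_dual (hF : IsFrame a F) (G : ∀ x, CuspForm (Γ0 N) (12 - a x))
    (h1 : ∀ (x y : X N) (τ : ℍ), ∑ c, cosetFun (G x) c τ * cosetFun (F y) c τ =
      if x = y then ModularForm.discriminant τ else 0) (x : X N) :
    0 ≤ a x ∧ a x ≤ 10 ∧ Even (a x) := by
  have hev := weight_even_of_isFrame hF x
  refine ⟨weight_nonneg_of_isFrame hF x, ?_, hev⟩
  have hlt : 0 < 12 - a x := by
    by_contra hle
    have hG : (G x : ℍ → ℂ) = 0 := cusp_coe_eq_zero_of_nonpos_weight (not_lt.1 hle) (G x)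
    have := h1 x x UpperHalfPlane.I
    rw [if_pos rfl] at this
    refine ModularForm.discriminant_ne_zero UpperHalfPlane.I ?_
    rw [← this]
    refine Finset.sum_eq_zero fun c _ => ?_
    rw [cosetFun_eq_zero_of_coe_eq_zero (G x) hG c]
    simp
  obtain ⟨r, hr⟩ := hev
  omega

/-- The space of modular forms of weight `0` on `Γ₀(N)` is one-dimensional. -/
theorem finrank_modularForm_zero : Module.finrank ℂ (ModularForm (Γ0 N) 0) = 1 := by
  have hne : (ModularForm.const 1 : ModularForm (Γ0 N) 0) ≠ 0 := by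
    intro h
    have := congrArg (fun f : ModularForm (Γ0 N) 0 => f UpperHalfPlane.I) h
    simp at this
  rw [finrank_eq_one_iff_of_nonzero' _ hne]
  intro w
  obtain ⟨c, hc⟩ := ModularForm.eq_const_of_weight_zero w
  refine ⟨c, ?_⟩
  ext τ
  have := congrFun hc τ
  simp [this]

/-- **G3d.** Exactly one member of a frame has weight `0`. -/
theorem card_weight_zero (hF : IsFrame a F) : (Finset.univ.filter fun x => a x = 0).card = 1 := by
  have h := finrank_modularForm hF 0
  rw [finrank_modularForm_zero] at h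
  have key : ∀ x, Module.finrank ℂ (ModularForm 𝒮ℒ (0 - a x)) = if a x = 0 then 1 else 0 := by
    intro x
    split_ifs with h0
    · rw [h0, sub_zero]
      exact Module.finrank_eq_of_rank_eq ModularForm.levelOne_weight_zero_rank_one
    · have hpos : 0 < a x := lt_of_le_of_ne (weight_nonneg_of_isFrame hF x) (Ne.symm h0)
      exact finrank_levelOne_neg (by omega)
  rw [Finset.sum_congr rfl fun x _ => key x, Finset.sum_boole] at h
  exact_mod_cast h.symm

/-! ### Final statements, in the shape of the S20 skeleton (`Decomp.lean`), with the conclusion of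
`exists_dual_frame` (package G2) as the hypothesis `hdual`. -/

/-- **G3a.** The weights of a frame are even and lie between `0` and `10`. -/
theorem weight_range (hF : IsFrame a F)
    (hdual : ∃ G : ∀ x, CuspForm (Γ0 N) (12 - a x),
      (∀ (x y : X N) (τ : ℍ), ∑ c, cosetFun (G x) c τ * cosetFun (F y) c τ =
        if x = y then ModularForm.discriminant τ else 0) ∧
      (∀ (c c' : X N) (τ : ℍ), ∑ x, cosetFun (F x) c τ * cosetFun (G x) c' τ =
        if c = c' then ModularForm.discriminant τ else 0)) (x : X N) :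
    0 ≤ a x ∧ a x ≤ 10 ∧ Even (a x) := by
  obtain ⟨G, h1, -⟩ := hdual
  exact weight_range_of_dual hF G h1 x

/-- **G3c.** Cusp forms of weight `k` on `Γ₀(N)` are uniquely `∑ s_x G_x` for the dual frame `G`. -/
theorem finrank_cuspForm
    (hdual : ∃ G : ∀ x, CuspForm (Γ0 N) (12 - a x),
      (∀ (x y : X N) (τ : ℍ), ∑ c, cosetFun (G x) c τ * cosetFun (F y) c τ =
        if x = y then ModularForm.discriminant τ else 0) ∧
      (∀ (c c' : X N) (τ : ℍ), ∑ x, cosetFun (F x) c τ * cosetFun (G x) c' τ =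
        if c = c' then ModularForm.discriminant τ else 0)) (k : ℤ) :
    Module.finrank ℂ (CuspForm (Γ0 N) k) =
      ∑ x, Module.finrank ℂ (ModularForm 𝒮ℒ (k + a x - 12)) := by
  obtain ⟨G, h1, h2⟩ := hdual
  exact finrank_cuspForm_of_dual k G h1 h2

end Fermat.Agent.S20.H77
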